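import Fermat.Agent.S32Lib.Star
import Fermat.Agent.Flat.Closure

/-!
# Subquotients from annihilators
-/

set_option autoImplicit false
set_option linter.unusedSectionVars false
set_option linter.style.haveILetI false

noncomputable section

namespace Fermat.Agent.S32Lib

open Fermat.Agent.RepTwo Fermat.Agent.Flat

section

variable {W : Type*} [AddCommGroup W] (α : GQ →* AddMonoid.End W) {q : ℕ} (e : Fin q → W)

/-- evaluation of the group ring at finitely many elements -/
def evalAt : GR →+ (Fin q → W) where
  toFun x i := actR α x (e i)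
  map_zero' := by funext i; rw [map_zero]; rfl
  map_add' x y := by funext i; rw [map_add]; rfl

theorem evalAt_apply (x : GR) (i : Fin q) : evalAt α e x i = actR α x (e i) := rfl

theorem piRep_evalAt (g : GQ) (x : GR) :
    piRep (Fin q) α g (evalAt α e x) = evalAt α e (FreeAbelianGroup.of g * x) := by
  funext i
  rw [evalAt_apply, map_mul, actR_of]
  rfl

/-- the action on the cyclic module -/
def cycRep : GQ →* AddMonoid.End (evalAt α e).range where
  toFun g := ((piRep (Fin q) α g).comp (evalAt α e).range.subtype).codRestrict (evalAt α e).range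
    (by
      rintro ⟨_, x, rfl⟩
      exact ⟨FreeAbelianGroup.of g * x, (piRep_evalAt α e g x).symm⟩)
  map_one' := by
    apply AddMonoidHom.ext
    intro x
    apply Subtype.ext
    change piRep (Fin q) α 1 (x : Fin q → W) = x
    rw [map_one]
    rfl
  map_mul' g h := by
    apply AddMonoidHom.ext
    intro x
    apply Subtype.ext
    change piRep (Fin q) α (g * h) (x : Fin q → W) =
      piRep (Fin q) α g (piRep (Fin q) α h (x : Fin q → W))
    rw [map_mul]
    rfl

theorem coe_cycRep (g : GQ) (y : (evalAt α e).range) :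
    (cycRep α e g y : Fin q → W) = piRep (Fin q) α g (y : Fin q → W) := rfl

theorem cycRep_rangeRestrict (g : GQ) (x : GR) :
    cycRep α e g ((evalAt α e).rangeRestrict x) =
      (evalAt α e).rangeRestrict (FreeAbelianGroup.of g * x) :=
  Subtype.ext (piRep_evalAt α e g x)

end

variable {R : Type*} [CommRing R] [IsDomain R] [IsPrincipalIdealRing R] [Infinite R] {Ω : Type*} [Field Ω] [Algebra R Ω]
  [MulSemiringAction GQ Ω] [Setup R Ω GQ]

/-- A representation killed by the annihilator of a flat representation is flat. -/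
theorem isFlat_of_annihilator {W V' : Type*} [AddCommGroup W] [AddCommGroup V'] [Finite W]
    [Finite V'] {α : GQ →* AddMonoid.End W} {β : GQ →* AddMonoid.End V'}
    (hα : IsFlat R (Ω := Ω) α) (h : ∀ x : GR, actR α x = 0 → actR β x = 0) :
    IsFlat R (Ω := Ω) β := by
  classical
  obtain ⟨q, ⟨e⟩⟩ := Finite.exists_equiv_fin W
  set φ := evalAt α (e.symm : Fin q → W) with hφ
  have hker : ∀ x : GR, φ x = 0 → actR α x = 0 := by
    intro x hx
    apply AddMonoidHom.ext
    intro w
    have h1 := congrFun hx (e w)
    rw [hφ, evalAt_apply, e.symm_apply_apply] at h1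
    exact h1
  have flat1 : IsFlat R (Ω := Ω) (cycRep α (e.symm : Fin q → W)) :=
    IsFlat.of_injective (hα.piRep_fin q) φ.range.subtype Subtype.val_injective (fun _ _ => rfl)
  have hsurj : Function.Surjective φ.rangeRestrict := φ.rangeRestrict_surjective
  let ev : V' → (GR →+ V') := fun v => 
    { toFun := fun x => actR β x v
      map_zero' := by rw [map_zero]; rfl
      map_add' := fun x y => by rw [map_add]; rfl }
  have hev : ∀ v, φ.rangeRestrict.ker ≤ (ev v).ker := by
    intro v x hx
    rw [AddMonoidHom.mem_ker] at hx ⊢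
    have h1 : φ x = 0 := congrArg Subtype.val hx
    change actR β x v = 0
    rw [h x (hker x h1)]
    rfl
  let ψ : V' → (φ.range →+ V') := fun v =>
    φ.rangeRestrict.liftOfSurjective hsurj ⟨ev v, hev v⟩
  have hψ : ∀ v x, ψ v (φ.rangeRestrict x) = actR β x v := fun v x =>
    AddMonoidHom.liftOfRightInverse_comp_apply _ _ _ _ _
  obtain ⟨r, ⟨e'⟩⟩ := Finite.exists_equiv_fin V'
  let Q : (Fin r → φ.range) →+ V' :=
    ∑ i, (ψ (e'.symm i)).comp (Pi.evalAddMonoidHom (fun _ : Fin r => φ.range) i)
  have hQ : ∀ y : Fin r → φ.range, Q y = ∑ i, ψ (e'.symm i) (y i) := fun y => by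
    simp only [Q, AddMonoidHom.finsetSum_apply]
    rfl
  haveI : Finite φ.range := inferInstance
  refine IsFlat.of_surjective (flat1.piRep_fin r) Q ?_ ?_
  · intro v
    refine ⟨Pi.single (e' v) (φ.rangeRestrict 1), ?_⟩
    rw [hQ, Finset.sum_eq_single (e' v)]
    · rw [Pi.single_eq_same, hψ, map_one, e'.symm_apply_apply]
      rfl
    · intro i _ hi
      rw [Pi.single_eq_of_ne hi, map_zero]
    · intro hcon
      exact absurd (Finset.mem_univ _) hcon
  · intro g y
    rw [hQ, hQ, map_sum]
    refine Finset.sum_congr rfl fun i _ => ?_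
    obtain ⟨x, hx⟩ := hsurj (y i)
    change ψ (e'.symm i) (cycRep α (e.symm : Fin q → W) g (y i)) = _
    rw [← hx]
    have h1 : cycRep α (e.symm : Fin q → W) g (φ.rangeRestrict x) =
        φ.rangeRestrict (FreeAbelianGroup.of g * x) := cycRep_rangeRestrict α _ g x
    rw [h1, hψ, hψ, map_mul, actR_of]
    rfl

end Fermat.Agent.S32Lib
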