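import Fermat.Agent.S32Lib.Kill
import Fermat.Agent.S32Lib.Sub
import Fermat.Agent.Flat.Global
import Fermat.Agent.FFM.JZeroFlat
import Fermat.Agent.QComp.Geom

/-!
# Flatness of the Galois representations of Hecke algebras
-/

set_option autoImplicit false
set_option linter.unusedSectionVars false
set_option linter.style.haveILetI false

open Polynomial ModularCurve

noncomputable section

namespace Fermat.Agent.S32Lib

open Fermat.Agent.RepTwo Fermat.Agent.Flat Fermat.Agent.QComp

theorem actR_apply_eq {W : Type*} [AddCommGroup W] {R : Type*} [CommRing R] [Module R W]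
    (α : GQ →* AddMonoid.End W) (β : GQ →* Module.End R W) (h : ∀ g w, α g w = β g w)
    (x : GR) (w : W) : actR α x w = actR β x w := by
  induction x using FreeAbelianGroup.induction_on with
  | zero => rw [map_zero, map_zero]; rfl
  | of g => rw [actR_of, actR_of, h]
  | neg g hg =>
    rw [map_neg, map_neg]
    exact congrArg (fun y => -y) hg
  | add a b ha hb =>
    rw [map_add, map_add]
    exact congrArg₂ (· + ·) ha hb

theorem actR_level {A : Type} [CommRing A] [IsLocalRing A] (ρ : GaloisRepAdic A) (I : Ideal A)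
    (x : GR) (v : ρ.V) : actR (levelHom ρ I) x (Submodule.mkQ _ v) =
      Submodule.mkQ (I • (⊤ : Submodule A ρ.V)) (actR ρ.ρ x v) := by
  induction x using FreeAbelianGroup.induction_on with
  | zero => rw [map_zero, map_zero, LinearMap.zero_apply, map_zero]; rfl
  | of g => rw [actR_of, actR_of]; rfl
  | neg g hg =>
    rw [map_neg, map_neg, LinearMap.neg_apply, map_neg]
    exact congrArg (fun y => -y) hg
  | add a b ha hb =>
    rw [map_add, map_add, LinearMap.add_apply, map_add]
    exact congrArg₂ (· + ·) ha hb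

theorem exists_pow_le {A : Type*} [CommRing A] [IsLocalRing A] (I : Ideal A) [Finite (A ⧸ I)] :
    ∃ j : ℕ, IsLocalRing.maximalIdeal A ^ j ≤ I := by
  by_cases hI : I = ⊤
  · exact ⟨0, by rw [hI]; exact le_top⟩
  haveI : Nontrivial (A ⧸ I) := Ideal.Quotient.nontrivial_iff.mpr hI
  haveI : IsLocalRing (A ⧸ I) := IsLocalRing.of_surjective' (Ideal.Quotient.mk I)
    Ideal.Quotient.mk_surjective
  haveI : IsArtinianRing (A ⧸ I) := inferInstance
  obtain ⟨j, hj⟩ := IsArtinianRing.isNilpotent_jacobson_bot (R := A ⧸ I)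
  refine ⟨j, ?_⟩
  have h1 : (IsLocalRing.maximalIdeal A).map (Ideal.Quotient.mk I) ≤
      Ideal.jacobson (⊥ : Ideal (A ⧸ I)) := by
    rw [IsLocalRing.jacobson_eq_maximalIdeal _ bot_ne_top, Ideal.map_le_iff_le_comap]
    intro x hx
    rw [Ideal.mem_comap]
    rw [IsLocalRing.mem_maximalIdeal] at hx ⊢
    intro hu
    apply hx
    haveI : IsLocalHom (Ideal.Quotient.mk I) :=
      IsLocalHom.of_surjective _ Ideal.Quotient.mk_surjective
    exact isUnit_of_map_unit (Ideal.Quotient.mk I) x hu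
  have h2 : (IsLocalRing.maximalIdeal A ^ j).map (Ideal.Quotient.mk I) ≤ ⊥ := by
    rw [Ideal.map_pow]
    exact (Ideal.pow_right_mono h1 j).trans hj.le
  rw [Ideal.map_le_iff_le_comap] at h2
  intro x hx
  have h3 := h2 hx
  rw [Ideal.mem_comap, Ideal.mem_bot, Ideal.Quotient.eq_zero_iff_mem] at h3
  exact h3

/-- **flatness of Galois representations with Eichler–Shimura Frobenius polynomials.** -/
theorem isFlatAt {p : ℕ} {N : ℕ} [NeZero N] {S : Finset ℕ}
    {T : Type} [CommRing T] [IsLocalRing T] [Finite (IsLocalRing.ResidueField T)]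
    (hp : p.Prime) (hpN : ¬ p ∣ N) (hpT : (p : T) ∈ IsLocalRing.maximalIdeal T) (hpS : p ∈ S)
    (hNS : ∀ q : ℕ, q.Prime → q ∣ N → q ∈ S)
    (π : CuspForm.heckeAlgebra N 2 (↑S : Set ℕ) →+* T) (ρ : GaloisRepAdic T)
    (hρ : ∀ (ℓ : ℕ) (hℓ : ℓ.Prime) (hℓN : ¬ ℓ ∣ N) (hℓS : ℓ ∉ (↑S : Set ℕ)), ℓ ≠ p →
      ∀ A : ValuationSubring (AlgebraicClosure ℚ), A.LiesOverPrime ℓ →
      ∀ σ : AlgebraicClosure ℚ ≃ₐ[ℚ] AlgebraicClosure ℚ, A.IsFrobeniusAt σ ℓ →
        LinearMap.charpoly (ρ.ρ σ) =
          X ^ 2 - C (π (CuspForm.heckeAlgebra.T hℓ hℓN hℓS)) * X + C ((ℓ : T)))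
    (habs : ρ.residual.IsAbsolutelyIrreducible) : ρ.IsFlatAt p := by
  haveI : Fact p.Prime := ⟨hp⟩
  rw [isFlatAt_iff]
  refine ⟨inferInstance, fun I hI => ?_⟩
  obtain ⟨j, hj⟩ := exists_pow_le I
  obtain ⟨L2, hL2f, hL2⟩ := ρ.isAdicContinuous j
  have hG := jZeroGeom N p
  obtain ⟨c, hE⟩ := (hG.isES (↑S : Set ℕ)).exists_realized
  obtain ⟨E, ⟨hR⟩⟩ := hE j
  haveI : Finite (pTor (JZero N) (p ^ (j + c))) := hG.finite _
  haveI : Finite E.V := Finite.of_injective
    (fun v => (⟨hR.j v, (hR.mem_range _).mpr ⟨v, rfl⟩⟩ : pTor (JZero N) (p ^ (j + c))))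
    (fun v w h => hR.inj (congrArg Subtype.val h))
  letI : DistribMulAction GQ E.V :=
    { smul := fun g v => E.act g v
      one_smul := fun v => by
        change E.act 1 v = v
        rw [map_one]; rfl
      mul_smul := fun g h v => by
        change E.act (g * h) v = E.act g (E.act h v)
        rw [map_mul]; rfl
      smul_zero := fun g => map_zero (E.act g)
      smul_add := fun g v w => map_add (E.act g) v w }
  have hflat := FFM.isFlat_jZero (N := N) (ℓ := p) hpN (M := E.V) hR.j hR.inj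
    (fun g m => hR.act g m)
  haveI := finite_level ρ I
  refine isFlat_of_annihilator hflat fun x hx => ?_
  have h1 : actR E.act x = 0 := by
    apply LinearMap.ext
    intro w
    have h2 := actR_apply_eq (DistribMulAction.toAddMonoidEnd GQ E.V) E.act (fun g w => rfl) x w
    rw [hx] at h2
    exact h2.symm
  apply AddMonoidHom.ext
  intro y
  obtain ⟨v, rfl⟩ := Submodule.mkQ_surjective _ y
  change actR (levelHom ρ I) x (Submodule.mkQ _ v) = 0
  rw [actR_level, Submodule.mkQ_apply, Submodule.Quotient.mk_eq_zero]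
  exact kill hp hpS hNS π ρ hρ habs I (hj (Ideal.pow_mem_pow hpT j)) E L2 hL2f
    (fun σ hσ v => Submodule.smul_mono_left hj (hL2 σ hσ v)) h1 v

end Fermat.Agent.S32Lib
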