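import Fermat.Agent.RepTwo.S31Core
import Fermat.Agent.RepTwo.Level
import Mathlib.GroupTheory.FreeAbelianGroup

/-!
# Annihilators of Eichler–Shimura modules annihilate the Galois representation
-/

set_option autoImplicit false
set_option linter.unusedSectionVars false
set_option linter.style.haveILetI false

open Polynomial

noncomputable section

namespace Fermat.Agent.S32Lib

open Fermat.Agent.RepTwo

/-- the integral group ring of the Galois group. -/
abbrev GR : Type := FreeAbelianGroup GQ

/-- action of the group ring -/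
def actR {R : Type*} [Ring R] (f : GQ →* R) : GR →+* R := FreeAbelianGroup.liftMonoid f

theorem actR_of {R : Type*} [Ring R] (f : GQ →* R) (g : GQ) :
    actR f (FreeAbelianGroup.of g) = f g := by
  unfold actR
  exact FreeAbelianGroup.lift_apply_of _ _

section Star

variable {N p : ℕ} [NeZero N] {S : Set ℕ} {n : ℕ} (E : ESModule N p S n) {m : ℕ}
  (hm : ∀ x : E.V, (p ^ m : ℕ) • x = 0) (c : GQ → ℕ) (r : GQ → HeckePoly N S)
  (hc : ∀ g h, c (g * h) ≡ c g * c h [MOD p ^ m]) (hc1 : c 1 ≡ 1 [MOD p ^ m])
  (hr : ∀ g, E.act g * E.act g - algebraMap (HeckePoly N S) _ (r g) * E.act g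
      + algebraMap (HeckePoly N S) _ ((c g : ℕ) : HeckePoly N S) = 0)

include hm in
theorem smul_congr {a b : ℕ} (h : a ≡ b [MOD p ^ m]) (f : Module.End (HeckePoly N S) E.V) :
    a • f = b • f := by
  have key : ∀ a b : ℕ, a ≤ b → a ≡ b [MOD (p ^ m)] → a • f = b • f := by
    intro a b hab h
    obtain ⟨d, hd⟩ := (Nat.modEq_iff_dvd' hab).mp h
    have h2 : b = a + p ^ m * d := by omega
    apply LinearMap.ext
    intro v
    rw [LinearMap.smul_apply, LinearMap.smul_apply, h2, add_smul, mul_smul, hm, add_zero]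
  rcases le_total a b with h' | h'
  · exact key a b h' h
  · exact (key b a h' h.symm).symm

/-- the star operation -/
def star : GR →+ Module.End (HeckePoly N S) E.V :=
  FreeAbelianGroup.lift fun g => c g • E.act g⁻¹

theorem star_of (g : GQ) : star E c (FreeAbelianGroup.of g) = c g • E.act g⁻¹ :=
  FreeAbelianGroup.lift_apply_of _ _

/-- the Hecke trace -/
def tau : GR →+ HeckePoly N S := FreeAbelianGroup.lift r

theorem tau_of (g : GQ) : tau r (FreeAbelianGroup.of g) = r g :=
  FreeAbelianGroup.lift_apply_of _ _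

include hr in
theorem act_add_star (g : GQ) :
    E.act g + c g • E.act g⁻¹ = algebraMap (HeckePoly N S) _ (r g) := by
  have h1 := congrArg (· * E.act g⁻¹) (hr g)
  simp only [zero_mul] at h1
  have h2 : E.act g * E.act g⁻¹ = 1 := by rw [← map_mul, mul_inv_cancel, map_one]
  rw [add_mul, sub_mul, mul_assoc, h2, mul_one, mul_assoc, h2, mul_one, map_natCast,
    ← nsmul_eq_mul] at h1
  rw [sub_add_eq_add_sub, sub_eq_zero] at h1
  exact h1

include hr in
theorem actR_add_star (x : GR) :
    actR E.act x + star E c x = algebraMap (HeckePoly N S) _ (tau r x) := by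
  have h1 : (actR E.act).toAddMonoidHom + star E c =
      ((algebraMap (HeckePoly N S) (Module.End (HeckePoly N S) E.V)).toAddMonoidHom).comp
        (tau r) := by
    apply FreeAbelianGroup.lift_ext
    intro g
    change actR E.act (FreeAbelianGroup.of g) + star E c (FreeAbelianGroup.of g) =
      algebraMap _ _ (tau r (FreeAbelianGroup.of g))
    rw [actR_of, star_of, tau_of, act_add_star E c r hr]
  exact DFunLike.congr_fun h1 x

include hm hc in
theorem star_mul_of (x : GR) (h : GQ) :
    star E c (x * FreeAbelianGroup.of h) = (c h • E.act h⁻¹) * star E c x := by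
  have h1 : (star E c).comp (AddMonoidHom.mulRight (FreeAbelianGroup.of h)) =
      (AddMonoidHom.mulLeft (c h • E.act h⁻¹)).comp (star E c) := by
    apply FreeAbelianGroup.lift_ext
    intro g
    change star E c (FreeAbelianGroup.of g * FreeAbelianGroup.of h) =
      (c h • E.act h⁻¹) * star E c (FreeAbelianGroup.of g)
    rw [FreeAbelianGroup.of_mul_of, star_of, star_of, smul_congr E hm (hc g h), mul_inv_rev,
      map_mul, smul_mul_smul_comm, mul_comm (c g)]
  exact DFunLike.congr_fun h1 x

variable {x : GR} (hx : actR E.act x = 0)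

include hm hc hr hx in
theorem star_eq_tau : star E c x = algebraMap (HeckePoly N S) _ (tau r x) := by
  rw [← actR_add_star E c r hr, hx, zero_add]

include hm hc hr hx in
theorem central (h : GQ) :
    (c h • E.act h⁻¹) * algebraMap (HeckePoly N S) _ (tau r x) =
      algebraMap (HeckePoly N S) _ (tau r (x * FreeAbelianGroup.of h)) := by
  have h1 : actR E.act (x * FreeAbelianGroup.of h) = 0 := by rw [map_mul, hx, zero_mul]
  rw [← star_eq_tau E hm c r hc hr h1, star_mul_of E hm c hc, star_eq_tau E hm c r hc hr hx]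

include hm hc hc1 hr hx in
theorem tau_mul_comm (g k : GQ) :
    algebraMap (HeckePoly N S) (Module.End (HeckePoly N S) E.V) (tau r x) *
      (E.act g * E.act k - E.act k * E.act g) = 0 := by
  set s := algebraMap (HeckePoly N S) (Module.End (HeckePoly N S) E.V) (tau r x) with hs
  have hsc : ∀ f : Module.End (HeckePoly N S) E.V, s * f = f * s := fun f =>
    Algebra.commutes (tau r x) f
  have h1 := central E hm c r hc hr hx g⁻¹
  rw [inv_inv] at h1
  have h2 : (c g⁻¹ • E.act g) * s * E.act k = E.act k * ((c g⁻¹ • E.act g) * s) := by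
    rw [h1]
    exact Algebra.commutes _ _
  have h3 := congrArg (c g • ·) h2
  beta_reduce at h3
  have h4 : c g * c g⁻¹ ≡ 1 [MOD p ^ m] := by
    refine (hc g g⁻¹).symm.trans ?_
    rw [mul_inv_cancel]
    exact hc1
  have h5 : ∀ f : Module.End (HeckePoly N S) E.V, c g • c g⁻¹ • f = f := by
    intro f
    rw [smul_smul, smul_congr E hm h4, one_smul]
  rw [smul_mul_assoc, smul_mul_assoc, mul_smul_comm, h5, h5] at h3
  rw [mul_sub, sub_eq_zero, ← mul_assoc, hsc (E.act g), h3, ← mul_assoc, hsc, mul_assoc]

include hm hc hc1 hr hx in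
/-- the key annihilation -/
theorem tau_mul_sub_smul (g h k : GQ) (v : E.V) :
    (tau r x * (r (g * h * k) - r (h * g * k))) • v = 0 := by
  set s := algebraMap (HeckePoly N S) (Module.End (HeckePoly N S) E.V) (tau r x) with hs
  have hsc : ∀ f : Module.End (HeckePoly N S) E.V, s * f = f * s := fun f =>
    Algebra.commutes (tau r x) f
  have h1 := tau_mul_comm E hm c r hc hc1 hr hx
  have e1 : s * (E.act (g * h * k) - E.act (h * g * k)) = 0 := by
    rw [map_mul, map_mul, map_mul, map_mul, ← sub_mul, ← mul_assoc, h1, zero_mul]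
  have hcc : c (g * h * k) ≡ c (h * g * k) [MOD p ^ m] := by
    refine (hc _ _).trans (Nat.ModEq.trans ?_ (hc _ _).symm)
    refine Nat.ModEq.mul_right _ ?_
    refine (hc _ _).trans (Nat.ModEq.trans ?_ (hc _ _).symm)
    rw [mul_comm]
  have e2 : s * (c (g * h * k) • E.act (g * h * k)⁻¹ - c (h * g * k) • E.act (h * g * k)⁻¹) =
      0 := by
    rw [smul_congr E hm hcc, ← smul_sub, mul_smul_comm]
    have e4 : s * (E.act (g * h * k)⁻¹ - E.act (h * g * k)⁻¹) = E.act k⁻¹ *
        (s * (E.act h⁻¹ * E.act g⁻¹ - E.act g⁻¹ * E.act h⁻¹)) := by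
      rw [mul_inv_rev, mul_inv_rev, mul_inv_rev, mul_inv_rev, map_mul, map_mul, map_mul, map_mul,
        ← mul_sub, ← mul_assoc, hsc (E.act k⁻¹), mul_assoc]
    rw [e4, h1, mul_zero, smul_zero]
  have e3 : s * (algebraMap (HeckePoly N S) _ (r (g * h * k)) -
      algebraMap (HeckePoly N S) _ (r (h * g * k))) = 0 := by
    rw [← act_add_star E c r hr, ← act_add_star E c r hr, add_sub_add_comm, mul_add, e1, e2,
      add_zero]
  have e4 := LinearMap.congr_fun e3 v
  rw [hs, ← map_sub, ← map_mul] at e4
  exact e4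

end Star

end Fermat.Agent.S32Lib
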