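import Fermat.Agent.S32Lib.Star

/-!
# Annihilators of Eichler–Shimura modules annihilate the Galois representation, II
-/

set_option autoImplicit false
set_option linter.unusedSectionVars false
set_option linter.style.haveILetI false

open Polynomial

noncomputable section

namespace Fermat.Agent.S32Lib

open Fermat.Agent.RepTwo

/-- the commutators of an absolutely irreducible representation have nontrivial traces -/
theorem exists_trace_sub_notMem {T : Type} [CommRing T] [IsLocalRing T] (ρ : GaloisRepAdic T)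
    (habs : ρ.residual.IsAbsolutelyIrreducible) :
    ∃ g h k : GQ, ρ.trace (g * h * k) - ρ.trace (h * g * k) ∉ IsLocalRing.maximalIdeal T := by
  classical
  by_contra hcon
  push Not at hcon
  have hspan := span_range_eq_top_of_absIrr ρ habs
  -- commutators of elements of the group are zero modulo the maximal ideal
  have h1 : ∀ (g h : GQ) (f : Module.End T ρ.V), LinearMap.trace T ρ.V
      (f * (ρ.ρ g * ρ.ρ h - ρ.ρ h * ρ.ρ g)) ∈ IsLocalRing.maximalIdeal T := by
    intro g h f
    have hf : f ∈ Submodule.span T (Set.range ρ.ρ) := by rw [hspan]; exact Submodule.mem_top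
    induction hf using Submodule.span_induction with
    | mem x hx =>
      obtain ⟨k, rfl⟩ := hx
      have h2 := hcon g h k
      rw [LinearMap.trace_mul_comm, sub_mul, ← map_mul, ← map_mul, ← map_mul, ← map_mul, map_sub]
      exact h2
    | zero => rw [zero_mul, map_zero]; exact zero_mem _
    | add x y _ _ hx hy => rw [add_mul, map_add]; exact add_mem hx hy
    | smul a x _ hx => rw [smul_mul_assoc, map_smul]; exact Ideal.mul_mem_left _ _ hx
  have h2 : ∀ (g h : GQ) (v : ρ.V), (ρ.ρ g * ρ.ρ h - ρ.ρ h * ρ.ρ g) v ∈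
      IsLocalRing.maximalIdeal T • (⊤ : Submodule T ρ.V) := fun g h v =>
    mem_smul_of_trace_mul_mem _ _ (h1 g h) v
  have h3 : ∀ (g : GQ) (f : Module.End T ρ.V) (v : ρ.V), (ρ.ρ g * f - f * ρ.ρ g) v ∈
      IsLocalRing.maximalIdeal T • (⊤ : Submodule T ρ.V) := by
    intro g f
    have hf : f ∈ Submodule.span T (Set.range ρ.ρ) := by rw [hspan]; exact Submodule.mem_top
    induction hf using Submodule.span_induction with
    | mem x hx =>
      obtain ⟨k, rfl⟩ := hx
      exact h2 g k
    | zero => intro v; simp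
    | add x y _ _ hx hy =>
      intro v
      have : (ρ.ρ g * (x + y) - (x + y) * ρ.ρ g) v = (ρ.ρ g * x - x * ρ.ρ g) v +
          (ρ.ρ g * y - y * ρ.ρ g) v := by
        rw [mul_add, add_mul, add_sub_add_comm, LinearMap.add_apply]
      rw [this]
      exact add_mem (hx v) (hy v)
    | smul a x _ hx =>
      intro v
      have : (ρ.ρ g * (a • x) - (a • x) * ρ.ρ g) v = a • (ρ.ρ g * x - x * ρ.ρ g) v := by
        rw [mul_smul_comm, smul_mul_assoc, ← smul_sub, LinearMap.smul_apply]
      rw [this]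
      exact Submodule.smul_mem _ _ (hx v)
  have h4 : ∀ (f' f : Module.End T ρ.V) (v : ρ.V), (f' * f - f * f') v ∈
      IsLocalRing.maximalIdeal T • (⊤ : Submodule T ρ.V) := by
    intro f' f
    have hf : f' ∈ Submodule.span T (Set.range ρ.ρ) := by rw [hspan]; exact Submodule.mem_top
    induction hf using Submodule.span_induction with
    | mem x hx =>
      obtain ⟨k, rfl⟩ := hx
      exact h3 k f
    | zero => intro v; simp
    | add x y _ _ hx hy =>
      intro v
      have : ((x + y) * f - f * (x + y)) v = (x * f - f * x) v + (y * f - f * y) v := by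
        rw [mul_add, add_mul, add_sub_add_comm, LinearMap.add_apply]
      rw [this]
      exact add_mem (hx v) (hy v)
    | smul a x _ hx =>
      intro v
      have : ((a • x) * f - f * (a • x)) v = a • (x * f - f * x) v := by
        rw [mul_smul_comm, smul_mul_assoc, ← smul_sub, LinearMap.smul_apply]
      rw [this]
      exact Submodule.smul_mem _ _ (hx v)
  -- elementary matrices
  let b : Module.Basis (Fin 2) T ρ.V := Module.finBasisOfFinrankEq T ρ.V ρ.finrank_eq
  let f' : Module.End T ρ.V := b.constr T ![0, b 0]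
  let f : Module.End T ρ.V := b.constr T ![b 1, 0]
  have e1 : (f' * f - f * f') (b 0) = b 0 := by
    have e2 : f (b 0) = b 1 := b.constr_basis T ![b 1, 0] 0
    have e3 : f' (b 1) = b 0 := b.constr_basis T ![0, b 0] 1
    have e4 : f' (b 0) = 0 := b.constr_basis T ![0, b 0] 0
    rw [LinearMap.sub_apply, Module.End.mul_apply, Module.End.mul_apply, e2, e3, e4,
      LinearMap.map_zero f, sub_zero]
  have h5 := h4 f' f (b 0)
  rw [e1] at h5
  have h6 : ∀ w ∈ IsLocalRing.maximalIdeal T • (⊤ : Submodule T ρ.V), b.repr w 0 ∈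
      IsLocalRing.maximalIdeal T := by
    intro w hw
    refine Submodule.smul_induction_on hw (fun r hr n _ => ?_) fun x y hx hy => ?_
    · rw [map_smul, Finsupp.smul_apply, smul_eq_mul]
      exact Ideal.mul_mem_right _ _ hr
    · rw [map_add, Finsupp.add_apply]
      exact Ideal.add_mem _ hx hy
  have h7 := h6 _ h5
  rw [b.repr_self, Finsupp.single_eq_same] at h7
  exact (IsLocalRing.mem_maximalIdeal _).mp h7 isUnit_one

/-- **annihilators of an Eichler–Shimura module kill the Galois representation modulo `I`.** -/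
theorem kill {p : ℕ} {N : ℕ} [NeZero N] {S : Finset ℕ}
    {T : Type} [CommRing T] [IsLocalRing T] (hp : p.Prime) (hpS : p ∈ S)
    (hNS : ∀ q : ℕ, q.Prime → q ∣ N → q ∈ S)
    (π : CuspForm.heckeAlgebra N 2 (↑S : Set ℕ) →+* T) (ρ : GaloisRepAdic T)
    (hρ : ∀ (ℓ : ℕ) (hℓ : ℓ.Prime) (hℓN : ¬ ℓ ∣ N) (hℓS : ℓ ∉ (↑S : Set ℕ)), ℓ ≠ p →
      ∀ A : ValuationSubring (AlgebraicClosure ℚ), A.LiesOverPrime ℓ →
      ∀ σ : AlgebraicClosure ℚ ≃ₐ[ℚ] AlgebraicClosure ℚ, A.IsFrobeniusAt σ ℓ →
        LinearMap.charpoly (ρ.ρ σ) =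
          X ^ 2 - C (π (CuspForm.heckeAlgebra.T hℓ hℓN hℓS)) * X + C ((ℓ : T)))
    (habs : ρ.residual.IsAbsolutelyIrreducible) (I : Ideal T)
    {n : ℕ} (hpn : (p : T) ^ n ∈ I) (E : ESModule N p (↑S : Set ℕ) n)
    (L2 : IntermediateField ℚ (AlgebraicClosure ℚ)) (hL2f : FiniteDimensional ℚ L2)
    (hL2 : ∀ σ : GQ, (∀ x ∈ L2, σ x = x) → ∀ v : ρ.V, ρ.ρ σ v - v ∈ I • (⊤ : Submodule T ρ.V))
    {x : GR} (hx : actR E.act x = 0) (v : ρ.V) :
    actR ρ.ρ x v ∈ I • (⊤ : Submodule T ρ.V) := by
  classical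
  obtain ⟨m, hm⟩ := E.torsion
  obtain ⟨L1, hL1f, hL1⟩ := E.finiteLevel
  -- a primitive root of unity
  have : NeZero ((p ^ m : ℕ) : AlgebraicClosure ℚ) :=
    ⟨by exact_mod_cast pow_ne_zero m hp.ne_zero⟩
  obtain ⟨ζ, hζ⟩ := HasEnoughRootsOfUnity.exists_primitiveRoot (AlgebraicClosure ℚ) (p ^ m)
  have hζint : IsIntegral ℚ ζ := Algebra.IsIntegral.isIntegral ζ
  have : FiniteDimensional ℚ (IntermediateField.adjoin ℚ {ζ}) :=
    IntermediateField.adjoin.finiteDimensional hζint
  have : FiniteDimensional ℚ ↥(L1 ⊔ L2) := IntermediateField.finiteDimensional_sup L1 L2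
  set L : IntermediateField ℚ (AlgebraicClosure ℚ) :=
    (L1 ⊔ L2) ⊔ IntermediateField.adjoin ℚ {ζ} with hLdef
  have : FiniteDimensional ℚ L := IntermediateField.finiteDimensional_sup _ _
  have hζL : ζ ∈ L := by
    have : ζ ∈ IntermediateField.adjoin ℚ {ζ} := IntermediateField.mem_adjoin_simple_self ℚ ζ
    exact (le_sup_right : IntermediateField.adjoin ℚ {ζ} ≤ L) this
  have hLE : ∀ σ : GQ, (∀ x ∈ L, σ x = x) → E.act σ = 1 := fun σ hσ =>
    hL1 σ fun x hx => hσ x ((le_sup_left.trans le_sup_left : L1 ≤ L) hx)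
  have hLρ : ∀ σ : GQ, (∀ x ∈ L, σ x = x) → ∀ v : ρ.V,
      ρ.ρ σ v - v ∈ I • (⊤ : Submodule T ρ.V) := fun σ hσ =>
    hL2 σ fun x hx => hσ x ((le_sup_right.trans le_sup_left : L2 ≤ L) hx)
  choose r c ℓ B F k H using fun g : GQ =>
    exists_isApprox (p := p) frobeniusDensity hpS hNS L g
  have hroot : ∀ g : GQ, g ζ = ζ ^ c g := fun g => (H g).apply_root hp hζL hζ.pow_eq_one
  have hc : ∀ g h : GQ, c (g * h) ≡ c g * c h [MOD p ^ m] := by
    intro g h
    apply modEq_of_apply_root (pow_ne_zero m hp.ne_zero) hζ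
    rw [← hroot, AlgEquiv.mul_apply, hroot h, map_pow, hroot g, ← pow_mul]
  have hc1 : c 1 ≡ 1 [MOD p ^ m] := by
    apply modEq_of_apply_root (pow_ne_zero m hp.ne_zero) hζ
    rw [← hroot, pow_one]
    rfl
  have hr : ∀ g, E.act g * E.act g - algebraMap (HeckePoly N (↑S : Set ℕ)) _ (r g) * E.act g
      + algebraMap (HeckePoly N (↑S : Set ℕ)) _ ((c g : ℕ) : HeckePoly N (↑S : Set ℕ)) = 0 :=
    fun g => E.quadratic hLE (H g)
  have htr : ∀ y : GR, LinearMap.trace T ρ.V (actR ρ.ρ y) - π (evalHecke N _ (tau r y)) ∈ I := by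
    intro y
    induction y using FreeAbelianGroup.induction_on with
    | zero => rw [map_zero, map_zero, map_zero, map_zero, map_zero, sub_zero]; exact zero_mem I
    | of g =>
      rw [actR_of, tau_of]
      exact trace_sub_mem ρ π hρ I hLρ (H g)
    | neg g hg =>
      rw [map_neg, map_neg, map_neg, map_neg, map_neg, ← neg_sub', neg_mem_iff]
      exact hg
    | add a b ha hb =>
      rw [map_add, map_add, map_add, map_add, map_add, add_sub_add_comm]
      exact add_mem ha hb
  obtain ⟨g, h, k', hghk⟩ := exists_trace_sub_notMem ρ habs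
  have hunit : IsUnit (ρ.trace (g * h * k') - ρ.trace (h * g * k')) := by
    by_contra hcon
    exact hghk ((IsLocalRing.mem_maximalIdeal _).mpr hcon)
  -- traces of annihilators are in `I`
  have key : ∀ y : GR, actR E.act y = 0 → LinearMap.trace T ρ.V (actR ρ.ρ y) ∈ I := by
    intro y hy
    obtain ⟨u, hu⟩ := E.faithful _ (tau_mul_sub_smul E hm c r hc hc1 hr hy g h k')
    have h1 : π (evalHecke N _ (tau r y)) *
        (π (evalHecke N _ (r (g * h * k'))) - π (evalHecke N _ (r (h * g * k')))) ∈ I := by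
      rw [← map_sub, ← map_sub, ← map_mul, ← map_mul, hu, map_nsmul, nsmul_eq_mul]
      apply Ideal.mul_mem_right
      push_cast
      exact hpn
    have h2 := htr y
    have h3 := trace_sub_mem ρ π hρ I hLρ (H (g * h * k'))
    have h4 := trace_sub_mem ρ π hρ I hLρ (H (h * g * k'))
    have h5 : LinearMap.trace T ρ.V (actR ρ.ρ y) *
        (ρ.trace (g * h * k') - ρ.trace (h * g * k')) ∈ I := by
      have h6 : LinearMap.trace T ρ.V (actR ρ.ρ y) *
          (ρ.trace (g * h * k') - ρ.trace (h * g * k')) =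
          (LinearMap.trace T ρ.V (actR ρ.ρ y) - π (evalHecke N _ (tau r y))) *
            (ρ.trace (g * h * k') - ρ.trace (h * g * k')) +
          π (evalHecke N _ (tau r y)) * (ρ.trace (g * h * k') -
            π (evalHecke N _ (r (g * h * k')))) -
          π (evalHecke N _ (tau r y)) * (ρ.trace (h * g * k') -
            π (evalHecke N _ (r (h * g * k')))) +
          π (evalHecke N _ (tau r y)) *
            (π (evalHecke N _ (r (g * h * k'))) - π (evalHecke N _ (r (h * g * k')))) := by
        ring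
      rw [h6]
      exact add_mem (sub_mem (add_mem (Ideal.mul_mem_right _ _ h2) (Ideal.mul_mem_left _ _ h3))
        (Ideal.mul_mem_left _ _ h4)) h1
    exact (Ideal.mul_unit_mem_iff_mem I hunit).mp h5
  apply mem_smul_of_trace_mul_mem
  intro f
  have hf : f ∈ Submodule.span T (Set.range ρ.ρ) := by
    rw [span_range_eq_top_of_absIrr ρ habs]; exact Submodule.mem_top
  induction hf using Submodule.span_induction with
  | mem y hy =>
    obtain ⟨σ, rfl⟩ := hy
    rw [← actR_of ρ.ρ σ, ← map_mul]
    apply key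
    rw [map_mul, hx, mul_zero]
  | zero => rw [zero_mul, map_zero]; exact zero_mem _
  | add a b _ _ ha hb => rw [add_mul, map_add]; exact add_mem ha hb
  | smul a y _ hy => rw [smul_mul_assoc, map_smul]; exact Ideal.mul_mem_left _ _ hy

end Fermat.Agent.S32Lib
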